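/-
S16, cohomological lower bound (owner helper119): the formal glue.

`HeckeAlg = ℤ[X_ℓ]` acts on cusp forms through `actC`.  On `Hom(Γ₀(N), A)` we only have the
operators `genOp ℓ` (no commutativity is proved or needed): every `t` is *realised* by a family of
operators, natural in `A`, compatible with the period map, with the involution and with
eigen-homomorphisms.  Consequence: if `t` kills `S₂(Γ₀(N))` then `t` kills every parabolic
homomorphism `Γ₀(N) → ℤ`, hence all its reductions.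
-/
import Fermat.Agent.S16.CardAlgebra
import Fermat.Agent.Lib.HeckeHom.Period
import Fermat.Agent.S21

set_option autoImplicit false

open CongruenceSubgroup ModularCurve ModularCurve.Period CuspForm
open scoped MatrixGroups

namespace Fermat.Agent.S16.Coh

open Fermat.Agent.Lib.HeckeHom

variable (N : ℕ) [NeZero N]

/-- The operator attached to the generator `X_ℓ` on `Hom(Γ₀(N), A)`. -/
noncomputable def genOp {A : Type*} [AddCommGroup A] (ℓ : Nat.Primes) :
    (Additive (Gamma0 N) →+ A) →+ (Additive (Gamma0 N) →+ A) :=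
  if h : (ℓ : ℕ) ∣ N then heckeHomU h else heckeHomT ℓ.2 h

theorem genOp_of_dvd {A : Type*} [AddCommGroup A] {ℓ : Nat.Primes} (h : (ℓ : ℕ) ∣ N) :
    (genOp N ℓ : (Additive (Gamma0 N) →+ A) →+ _) = heckeHomU h := dif_pos h

theorem genOp_of_not_dvd {A : Type*} [AddCommGroup A] {ℓ : Nat.Primes} (h : ¬ (ℓ : ℕ) ∣ N) :
    (genOp N ℓ : (Additive (Gamma0 N) →+ A) →+ _) = heckeHomT ℓ.2 h := dif_neg h

theorem genOp_comp {A B : Type*} [AddCommGroup A] [AddCommGroup B] (ℓ : Nat.Primes) (g : A →+ B)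
    (ψ : Additive (Gamma0 N) →+ A) : genOp N ℓ (g.comp ψ) = g.comp (genOp N ℓ ψ) := by
  have : NeZero (ℓ : ℕ) := ⟨ℓ.2.ne_zero⟩
  have : Fact (ℓ : ℕ).Prime := ⟨ℓ.2⟩
  by_cases h : (ℓ : ℕ) ∣ N
  · rw [genOp_of_dvd N h, genOp_of_dvd N h]
    exact IsHeckeFamily.heckeHom_comp (isHeckeFamily_U h) g ψ
  · rw [genOp_of_not_dvd N h, genOp_of_not_dvd N h]
    exact IsHeckeFamily.heckeHom_comp (isHeckeFamily_T h) g ψ

theorem periodMap_actC_heckeGen (ℓ : Nat.Primes) (f : CuspForm (Gamma0 N) 2) :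
    periodMap N (actC N (heckeGen ℓ) f) = genOp N ℓ (periodMap N f) := by
  by_cases h : (ℓ : ℕ) ∣ N
  · rw [genOp_of_dvd N h, actC_heckeGen_of_dvd N h, periodMap_heckeU]
  · rw [genOp_of_not_dvd N h, actC_heckeGen_of_not_dvd N h, periodMap_heckeT]

/-- A family of additive operators on `Hom(Γ₀(N), A)`, natural in `A`. -/
structure OpFamily where
  /-- the operator -/
  op : ∀ (A : Type) [AddCommGroup A], (Additive (Gamma0 N) →+ A) →+ (Additive (Gamma0 N) →+ A)
  nat : ∀ (A B : Type) [AddCommGroup A] [AddCommGroup B] (g : A →+ B)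
    (ψ : Additive (Gamma0 N) →+ A), op B (g.comp ψ) = g.comp (op A ψ)

/-- `Θ` realises the action of `t`. -/
structure Realizes (t : HeckeAlg) (Θ : OpFamily N) : Prop where
  period : ∀ f : CuspForm (Gamma0 N) 2, periodMap N (actC N t f) = Θ.op ℂ (periodMap N f)
  invol : ∀ ψ : Additive (Gamma0 N) →+ ℂ,
    Θ.op ℂ (charInvolution N ℂ ℂ ψ) = charInvolution N ℂ ℂ (Θ.op ℂ ψ)
  eigen : ∀ (A : Type) [AddCommGroup A] (χ : Additive (Gamma0 N) →+ A) (e : Nat.Primes → ℤ),
    (∀ ℓ, genOp N ℓ χ = e ℓ • χ) → Θ.op A χ = (MvPolynomial.aeval e t : ℤ) • χ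

theorem periodMap_zsmul (a : ℤ) (f : CuspForm (Gamma0 N) 2) :
    periodMap N (a • f) = a • periodMap N f := by
  obtain ⟨pml, hpml⟩ := Fermat.Agent.S21.existsPeriodMapLinear N
  rw [← hpml, ← hpml, map_zsmul]

theorem periodMap_add (f g : CuspForm (Gamma0 N) 2) :
    periodMap N (f + g) = periodMap N f + periodMap N g := by
  obtain ⟨pml, hpml⟩ := Fermat.Agent.S21.existsPeriodMapLinear N
  rw [← hpml, ← hpml, ← hpml, map_add]

theorem periodMap_zero : periodMap N 0 = 0 := by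
  obtain ⟨pml, hpml⟩ := Fermat.Agent.S21.existsPeriodMapLinear N
  rw [← hpml, map_zero]

/-- Every `t` is realised by a natural family of operators. -/
theorem exists_realizes
    (hinv : ∀ (ℓ : Nat.Primes) (ψ : Additive (Gamma0 N) →+ ℂ),
      genOp N ℓ (charInvolution N ℂ ℂ ψ) = charInvolution N ℂ ℂ (genOp N ℓ ψ))
    (t : HeckeAlg) : ∃ Θ : OpFamily N, Realizes N t Θ := by
  induction t using MvPolynomial.induction_on with
  | C a =>
    refine ⟨⟨fun A _ => a • AddMonoidHom.id _, ?_⟩, ?_, ?_, ?_⟩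
    · intro A B _ _ g ψ
      refine AddMonoidHom.ext fun γ => ?_
      simp
    · intro f
      rw [actC_C]
      simp [periodMap_zsmul]
    · intro ψ
      simp
    · intro A _ χ e _
      simp
  | add s t hs ht =>
    obtain ⟨Θ₁, h₁⟩ := hs
    obtain ⟨Θ₂, h₂⟩ := ht
    refine ⟨⟨fun A _ => Θ₁.op A + Θ₂.op A, ?_⟩, ?_, ?_, ?_⟩
    · intro A B _ _ g ψ
      refine AddMonoidHom.ext fun γ => ?_
      simp [Θ₁.nat, Θ₂.nat]
    · intro f
      rw [actC_add]
      simp [periodMap_add, h₁.period, h₂.period]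
    · intro ψ
      simp [h₁.invol, h₂.invol]
    · intro A _ χ e he
      simp [h₁.eigen A χ e he, h₂.eigen A χ e he, add_smul]
  | mul_X t ℓ ht =>
    obtain ⟨Θ, h⟩ := ht
    refine ⟨⟨fun A _ => (Θ.op A).comp (genOp N ℓ), ?_⟩, ?_, ?_, ?_⟩
    · intro A B _ _ g ψ
      simp [genOp_comp, Θ.nat]
    · intro f
      have : (MvPolynomial.X ℓ : HeckeAlg) = heckeGen ℓ := rfl
      rw [this, actC_mul]
      simp [h.period, periodMap_actC_heckeGen]
    · intro ψ
      simp [hinv, h.invol]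
    · intro A _ χ e he
      simp only [AddMonoidHom.comp_apply, he ℓ, map_zsmul, h.eigen A χ e he, map_mul,
        MvPolynomial.aeval_X, smul_smul]
      rw [mul_comm]

/-- If `t` kills all cusp forms then any realisation of `t` kills the parabolic homs to `ℂ`. -/
theorem Realizes.op_eq_zero {t : HeckeAlg} {Θ : OpFamily N} (h : Realizes N t Θ)
    (ht : actC N t = 0) {ψ : Additive (Gamma0 N) →+ ℂ}
    (hψ : ψ ∈ parabolicHoms ℂ (Gamma0 N) ℂ) : Θ.op ℂ ψ = 0 := by
  have hper : ∀ f, Θ.op ℂ (periodMap N f) = 0 := by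
    intro f
    rw [← h.period, ht, LinearMap.zero_apply, periodMap_zero]
  rw [← (Fermat.Agent.S21.result N).2] at hψ
  obtain ⟨⟨f, g⟩, rfl⟩ := hψ
  obtain ⟨pml, hpml, hdef⟩ := periodHomPair_def N (Fermat.Agent.S21.existsPeriodMapLinear N)
  rw [hdef]
  simp [hpml, h.invol, hper]

/-- **Main formal statement.**  If `t` kills `S₂(Γ₀(N))`, `φ : Γ₀(N) → ℤ` is parabolic and its
reduction `g ∘ φ` is an eigen-homomorphism with eigenvalues `e`, then `e(t)` kills `g ∘ φ`. -/
theorem aeval_smul_eq_zero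
    (hinv : ∀ (ℓ : Nat.Primes) (ψ : Additive (Gamma0 N) →+ ℂ),
      genOp N ℓ (charInvolution N ℂ ℂ ψ) = charInvolution N ℂ ℂ (genOp N ℓ ψ))
    {t : HeckeAlg} (ht : actC N t = 0) (φ : Additive (Gamma0 N) →+ ℤ)
    (hφ : (Int.castAddHom ℂ).comp φ ∈ parabolicHoms ℂ (Gamma0 N) ℂ)
    {A : Type} [AddCommGroup A] (g : ℤ →+ A) (e : Nat.Primes → ℤ)
    (he : ∀ ℓ, genOp N ℓ (g.comp φ) = e ℓ • g.comp φ) :
    (MvPolynomial.aeval e t : ℤ) • g.comp φ = 0 := by
  obtain ⟨Θ, h⟩ := exists_realizes N hinv t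
  have h1 := h.op_eq_zero N ht hφ
  rw [Θ.nat] at h1
  have h2 : Θ.op ℤ φ = 0 := by
    refine AddMonoidHom.ext fun γ => ?_
    have := DFunLike.congr_fun h1 γ
    simpa using this
  rw [← h.eigen A _ e he, Θ.nat, h2, AddMonoidHom.comp_zero]

/-- The S23 bridge: an element acting as zero on the integral lattice kills all cusp forms. -/
theorem actC_eq_zero_of_phi_eq_zero (hint : HasIntegralStructure N 2) {t : HeckeAlg}
    (ht : phi N t = 0) : actC N t = 0 :=
  LinearMap.ext_on hint fun f hf => (phi_eq_zero_iff N t).1 ht f hf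

end Fermat.Agent.S16.Coh
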