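/-
S16, cohomological lower bound (owner helper119): final assembly.

`t ∈ ℤ[X_ℓ]` acting as `0` on the integral lattice of `S₂(Γ₀(p))` satisfies `n ∣ eis t`,
`n = (p - 1) / gcd (p - 1, 12)`.  Ingredients: S23 (integral structure), S21 (Eichler-Shimura),
`Lib/HeckeHom` (helper242), `S16/Chi` (helper220), `S16/Lift` (helper261), `S16/Coh/Glue`.
-/
import Fermat.Agent.S16.Coh.Glue
import Fermat.Agent.Lib.HeckeHom.Char
import Fermat.Agent.S16.Chi
import Fermat.Agent.S16.Lift
import Fermat.Agent.S23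

set_option autoImplicit false

open CongruenceSubgroup ModularCurve ModularCurve.Period CuspForm
open scoped MatrixGroups

namespace Fermat.Agent.S16.Coh

open Fermat.Agent.Lib.HeckeHom Fermat.Agent.S16.Chi

theorem genOp_charInvolution (N : ℕ) [NeZero N] (ℓ : Nat.Primes)
    (ψ : Additive (Gamma0 N) →+ ℂ) :
    genOp N ℓ (charInvolution N ℂ ℂ ψ) = charInvolution N ℂ ℂ (genOp N ℓ ψ) := by
  by_cases h : (ℓ : ℕ) ∣ N
  · rw [genOp_of_dvd N h, heckeHomU_charInvolution]
  · rw [genOp_of_not_dvd N h, heckeHomT_charInvolution]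

variable (p : ℕ) [Fact p.Prime]

theorem dHom_eq_dUnit (γ : Gamma0 p) : dHom p γ = dUnit p γ := Units.ext rfl

theorem natCast_self_eq_one : ((p : ℕ) : ZMod (nn p)) = 1 := by
  have h1 : 1 ≤ p := (Fact.out : p.Prime).one_lt.le
  have h2 : ((p - 1 : ℕ) : ZMod (nn p)) = 0 :=
    (ZMod.natCast_eq_zero_iff _ _).2 (eisensteinNumerator_dvd p)
  rw [Nat.cast_sub h1, Nat.cast_one, sub_eq_zero] at h2
  exact h2

/-- The Shimura character is an Eisenstein eigen-homomorphism. -/
theorem genOp_chi (ℓ : Nat.Primes) : genOp p ℓ (chi p) = eisensteinSystem p ℓ • chi p := by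
  have hfac : ∀ γ : Gamma0 p,
      chi p (Additive.ofMul γ) = Multiplicative.toAdd (dlog p (dUnit p γ)) := by
    intro γ
    rw [chi_apply, dHom_eq_dUnit]
  by_cases h : (ℓ : ℕ) ∣ p
  · rw [genOp_of_dvd p h, heckeHomU_of_factors h (dlog p) (chi p) hfac,
      eisensteinSystem_of_dvd h, one_smul]
    have hℓ : (ℓ : ℕ) = p := (Nat.prime_dvd_prime_iff_eq ℓ.2 Fact.out).1 h
    refine AddMonoidHom.ext fun γ => ?_
    rw [AddMonoidHom.smul_apply, hℓ, nsmul_eq_mul, natCast_self_eq_one, one_mul]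
  · rw [genOp_of_not_dvd p h, heckeHomT_of_factors ℓ.2 h (dlog p) (chi p) hfac,
      eisensteinSystem_of_not_dvd h]
    refine AddMonoidHom.ext fun γ => ?_
    simp only [AddMonoidHom.smul_apply]
    rw [← natCast_zsmul]
    congr 1
    push_cast
    ring

/-- **The lower bound of S16** (cohomological route). -/
theorem lower_bound (t : HeckeAlg) (ht : phi p t = 0) :
    (eisensteinNumerator p : ℤ) ∣ eis p t := by
  have h0 : actC p t = 0 := actC_eq_zero_of_phi_eq_zero p (Fermat.Agent.S23.result p) ht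
  obtain ⟨φ, -, hφ, hφχ⟩ := Fermat.Agent.S16.Lift.exists_lift p (nn p) (chi p) (chi_kills p)
  have hcomp : (Int.castAddHom (ZMod (nn p))).comp φ = chi p :=
    AddMonoidHom.ext fun γ => hφχ γ
  have h1 := aeval_smul_eq_zero p (genOp_charInvolution p) h0 φ hφ
    (Int.castAddHom (ZMod (nn p))) (eisensteinSystem p) (by rw [hcomp]; exact genOp_chi p)
  rw [hcomp] at h1
  refine dvd_of_smul_chi_eq_zero p _ fun γ => ?_
  exact DFunLike.congr_fun h1 (Additive.ofMul γ)

/-- The lower bound in the shape used by `card_eq_of_bounds`. -/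
theorem lower_bound' (t : HeckeAlg) (ht : ∀ f ∈ intLattice p 2, actC p t f = 0) :
    (eisensteinNumerator p : ℤ) ∣ eis p t :=
  lower_bound p t ((phi_eq_zero_iff p t).2 ht)

end Fermat.Agent.S16.Coh
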